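import Fermat.Agent.BrauerTheory.Group
import Fermat.Agent.CSA.SkolemNoether
import Mathlib.Algebra.Central.Matrix

/-!
# Algebras with the same class and dimension are isomorphic
-/

set_option autoImplicit false

noncomputable section

universe u

open scoped TensorProduct
open Module

namespace FA.BrauerTheory

variable {K : Type u} [Field K]

/-- **Cancellation**: equal classes and equal dimensions give isomorphic algebras. -/
theorem nonempty_algEquiv_of_mk_eq {A B : CSA.{u, u} K} (h : mk A = mk B)
    (hd : finrank K A = finrank K B) : Nonempty (A ≃ₐ[K] B) := by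
  obtain ⟨n, m, hn, hm, ⟨e⟩⟩ := mk_eq_iff.1 h
  obtain rfl : n = m := by
    have h' := e.toLinearEquiv.finrank_eq
    rw [Module.finrank_matrix, Module.finrank_matrix, Fintype.card_fin, Fintype.card_fin, hd,
      ← sq, ← sq] at h'
    exact Nat.pow_left_injective two_ne_zero (Nat.eq_of_mul_eq_mul_right Module.finrank_pos h')
  have : NeZero n := ⟨hn⟩
  let f : Matrix (Fin n) (Fin n) K →ₐ[K] Matrix (Fin n) (Fin n) B :=
    (Algebra.ofId K B).mapMatrix
  obtain ⟨w, hw⟩ := FA.CSA.exists_conj
    (e.toAlgHom.comp (Algebra.ofId K A).mapMatrix) f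
  let c : A → Matrix (Fin n) (Fin n) B := fun a =>
    (w : Matrix (Fin n) (Fin n) B) * e (Matrix.scalar (Fin n) a) *
      (↑w⁻¹ : Matrix (Fin n) (Fin n) B)
  have hc : ∀ a, c a = Matrix.scalar (Fin n) (c a 0 0) := fun a => by
    suffices h : ∀ i j, Commute (Matrix.single i j (1 : B)) (c a) by
      obtain ⟨r, hr⟩ := Matrix.mem_range_scalar_iff_commute_single'.2 h
      simp [← hr]
    intro i j
    have hs : f (Matrix.single i j 1) = Matrix.single i j (1 : B) := by simp [f]
    have hcomm : Commute ((Algebra.ofId K A).mapMatrix (Matrix.single i j (1 : K)))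
        (Matrix.scalar (Fin n) a) := by
      simp only [AlgHom.mapMatrix_apply, Matrix.map_single, map_one]
      exact (Matrix.scalar_commute_iff.2 (by simp)).symm
    rw [← hs, hw]
    simp only [c, AlgHom.coe_comp, AlgEquiv.coe_toAlgHom, Function.comp_apply, Commute,
      SemiconjBy, mul_assoc, Units.inv_mul_cancel_left]
    rw [← mul_assoc (e _) (e _), ← map_mul, hcomm.eq, map_mul, mul_assoc]
  have hmul : ∀ a b, c (a * b) = c a * c b := fun a b => by
    simp only [c, map_mul, mul_assoc, Units.inv_mul_cancel_left]
  let φ : (A : Type u) →ₐ[K] B :=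
    { toFun := fun a => c a 0 0
      map_one' := by simp [c]
      map_mul' := fun a b => by
        show c (a * b) 0 0 = _
        rw [hmul, hc a, hc b, ← map_mul]
        simp
      map_zero' := by simp [c]
      map_add' := fun a b => by
        show c (a + b) 0 0 = c a 0 0 + c b 0 0
        simp only [c, map_add, mul_add, add_mul, Matrix.add_apply]
      commutes' := fun k => by
        have hk : Matrix.scalar (Fin n) (algebraMap K A k) =
            algebraMap K (Matrix (Fin n) (Fin n) A) k := rfl
        show c (algebraMap K A k) 0 0 = _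
        simp only [c]
        rw [hk, AlgEquiv.commutes, ← Algebra.commutes, mul_assoc, Units.mul_inv, mul_one]
        simp [Matrix.algebraMap_matrix_apply] }
  exact ⟨equivOfFinrankEq φ hd⟩

end FA.BrauerTheory

end
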