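import Fermat.Agent.BrauerTheory.Index
import Mathlib.GroupTheory.Sylow
import Mathlib.GroupTheory.SpecificGroups.Cyclic
import Mathlib.GroupTheory.Index
import Mathlib.FieldTheory.Normal.Closure

/-!
# The theorem of Albert, Brauer, Hasse and Noether

A class of the Brauer group of a number field which is trivial at every place is trivial: a Galois
extension splits it, over the fixed field of a Sylow `p`-subgroup the extension is a tower of cyclic
steps of degree `p`, and the degree of that fixed field is prime to `p`.
-/

set_option autoImplicit false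

noncomputable section

open Module NumberField IntermediateField

namespace FA.BrauerTheory

/-- The statement for extensions whose group is a `p`-group. -/
theorem eq_one_of_pGroup {p : ℕ} [hp : Fact p.Prime] {L : Type} [Field L] [NumberField L]
    (k : ℕ) : ∀ (K : Type) [Field K] [NumberField K] [Algebra K L] [IsGalois K L],
      Nat.card (L ≃ₐ[K] L) = p ^ k → ∀ x : BrauerGroup.{0, 0} K,
        restriction L x = 1 → LocallyTrivial x → x = 1 := by
  induction k with
  | zero =>
    intro K _ _ _ _ hk x hx _
    rw [pow_zero, IsGalois.card_aut_eq_finrank] at hk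
    rw [← restriction_self x]
    exact restriction_eq_one_of_algHom
      (equivOfFinrankEq (Algebra.ofId K L) (by rw [hk, Module.finrank_self])).symm.toAlgHom hx
  | succ k ih =>
    intro K _ _ _ _ hk x hx hloc
    obtain ⟨H, hH⟩ := Sylow.exists_subgroup_card_pow_prime p (G := L ≃ₐ[K] L) (n := k)
      (hk ▸ pow_dvd_pow p k.le_succ)
    have hidx : H.index = p := by
      have h := H.card_mul_index
      rw [hH, hk, pow_succ] at h
      exact Nat.eq_of_mul_eq_mul_left (pow_pos hp.out.pos k) h
    have : H.Normal := H.normal_of_index_eq_minFac_card (by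
      rw [hidx, hk, Nat.pow_minFac k.succ_ne_zero, hp.out.minFac_eq])
    have hM : finrank (fixedField H) L = p ^ k := (finrank_fixedField_eq_card H).trans hH
    have hcard : finrank K (fixedField H) = p := by
      have h := Module.finrank_mul_finrank K (fixedField H) L
      rw [hM, ← IsGalois.card_aut_eq_finrank K L, hk, pow_succ, mul_comm (p ^ k)] at h
      exact Nat.eq_of_mul_eq_mul_right (pow_pos hp.out.pos k) h
    have : IsCyclic (fixedField H ≃ₐ[K] fixedField H) :=
      isCyclic_of_prime_card ((IsGalois.card_aut_eq_finrank K (fixedField H)).trans hcard)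
    exact eq_one_of_local (L := fixedField H)
      (ih (fixedField H) ((IsGalois.card_aut_eq_finrank _ L).trans hM) _
        ((restriction_restriction (fixedField H) L x).trans hx) (hloc.restriction _)) hloc.1 hloc.2

/-- **Albert–Brauer–Hasse–Noether**: a class trivial at every place is trivial. -/
theorem eq_one_of_locallyTrivial {K : Type} [Field K] [NumberField K] {x : BrauerGroup.{0, 0} K}
    (hloc : LocallyTrivial x) : x = 1 := by
  obtain ⟨L₀, _, _, hfd, -, h₀⟩ := exists_separable_restriction_eq_one x
  let Ω := AlgebraicClosure L₀
  let N : IntermediateField K Ω := normalClosure K L₀ Ω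
  let g : L₀ →ₐ[K] N := (IsScalarTower.toAlgHom K L₀ Ω).codRestrict N.toSubalgebra fun y =>
    AlgHom.fieldRange_le_normalClosure (IsScalarTower.toAlgHom K L₀ Ω) ⟨y, rfl⟩
  have hN : restriction N x = 1 := restriction_eq_one_of_algHom g h₀
  have : CharZero Ω := charZero_of_injective_algebraMap (algebraMap K Ω).injective
  have : NumberField N := NumberField.of_module_finite K N
  have : IsGalois K N := ⟨⟩
  refine eq_one_of_coprime_splitting fun p hp => ?_
  have : Fact p.Prime := ⟨hp⟩
  let P : Sylow p (N ≃ₐ[K] N) := default
  let M : IntermediateField K N := fixedField (P : Subgroup (N ≃ₐ[K] N))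
  obtain ⟨k, hk⟩ := IsPGroup.iff_card.1 P.isPGroup'
  have hM : finrank M N = p ^ k := (finrank_fixedField_eq_card _).trans hk
  refine ⟨M, inferInstance, inferInstance, inferInstance, fun hdvd => ?_,
    eq_one_of_pGroup k M ((IsGalois.card_aut_eq_finrank M N).trans hM) _
      ((restriction_restriction M N x).trans hN) (hloc.restriction _)⟩
  have h := Module.finrank_mul_finrank K M N
  rw [hM, ← IsGalois.card_aut_eq_finrank K N, ← (P : Subgroup (N ≃ₐ[K] N)).card_mul_index, hk,
    mul_comm (finrank K M)] at h
  exact P.not_dvd_index (Nat.eq_of_mul_eq_mul_left (pow_pos hp.pos k) h ▸ hdvd)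

end FA.BrauerTheory

end
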