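import Fermat.Agent.CSA.SkolemNoether
import Mathlib.Algebra.Azumaya.Defs
import Mathlib.Algebra.Central.Matrix
import Mathlib.LinearAlgebra.FiniteDimensional.Lemmas
import Mathlib.LinearAlgebra.FreeModule.Finite.Matrix
import Mathlib.LinearAlgebra.Matrix.Basis
import Mathlib.RingTheory.SimpleModule.WedderburnArtin
import Mathlib.RingTheory.SimpleRing.Matrix

/-!
# Isomorphisms of central simple algebras

Tensor products and base changes of central simple algebras, and the lemma that `M_n(D) ≅ M_b(K)`
forces `D = K`.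
-/

set_option autoImplicit false

noncomputable section

open scoped TensorProduct
open Module

namespace FA.BrauerTheory

variable {K : Type*} [Field K]

/-- A homomorphism from a simple algebra to one of the same dimension is bijective. -/
def equivOfFinrankEq {R S : Type*} [Ring R] [Ring S] [Algebra K R] [Algebra K S] [IsSimpleRing R]
    [Nontrivial S] [FiniteDimensional K R] [FiniteDimensional K S] (φ : R →ₐ[K] S)
    (h : finrank K R = finrank K S) : R ≃ₐ[K] S :=
  AlgEquiv.ofBijective φ ⟨φ.toRingHom.injective,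
    (LinearMap.injective_iff_surjective_of_finrank_eq_finrank (f := φ.toLinearMap) h).1
      φ.toRingHom.injective⟩

variable {A B : Type*} [Ring A] [Ring B] [Algebra K A] [Algebra K B]

/-- If `B` is central, what commutes with `1 ⊗ B` comes from `A`. -/
theorem exists_tmul_one_of_commute [Algebra.IsCentral K B] {z : A ⊗[K] B}
    (hz : ∀ x : B, ((1 : A) ⊗ₜ[K] x) * z = z * ((1 : A) ⊗ₜ[K] x)) :
    ∃ a : A, z = a ⊗ₜ[K] (1 : B) := by
  classical
  let b := Module.Basis.ofVectorSpace K A
  let c := TensorProduct.equivFinsuppOfBasisLeft (N := B) b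
  have hc : ∀ (x : B) (y : A ⊗[K] B) i,
      c (((1 : A) ⊗ₜ[K] x) * y) i = x * c y i ∧ c (y * ((1 : A) ⊗ₜ[K] x)) i = c y i * x := by
    intro x y i
    induction y using TensorProduct.induction_on with
    | zero => simp
    | tmul a z => simp [c, Algebra.TensorProduct.tmul_mul_tmul]
    | add u v hu hv => simp [mul_add, add_mul, hu.1, hu.2, hv.1, hv.2]
  have hcen : ∀ i, ∃ α : K, algebraMap K B α = c z i := fun i => by
    have hm : c z i ∈ Subalgebra.center K B := Subalgebra.mem_center_iff.2 fun x => by
      rw [← (hc x z i).1, hz x, (hc x z i).2]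
    exact Algebra.mem_bot.1 (Algebra.IsCentral.out hm)
  choose α hα using hcen
  refine ⟨∑ i ∈ (c z).support, α i • b i, ?_⟩
  conv_lhs => rw [← c.symm_apply_apply z]
  rw [TensorProduct.sum_tmul, TensorProduct.equivFinsuppOfBasisLeft_symm_apply, Finsupp.sum]
  exact Finset.sum_congr rfl fun i _ => by
    rw [TensorProduct.smul_tmul, ← Algebra.algebraMap_eq_smul_one, hα]

/-- **Tensor products of central algebras are central.** -/
theorem isCentral_tensorProduct [Algebra.IsCentral K A] [Algebra.IsCentral K B] [Nontrivial B] :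
    Algebra.IsCentral K (A ⊗[K] B) := by
  refine ⟨fun z hz => ?_⟩
  obtain ⟨a, rfl⟩ := exists_tmul_one_of_commute fun x => Subalgebra.mem_center_iff.1 hz _
  have ha : a ∈ Subalgebra.center K A := Subalgebra.mem_center_iff.2 fun x =>
    Algebra.TensorProduct.includeLeft_injective (S := K) (A := A) (algebraMap K B).injective (by
      simpa [Algebra.TensorProduct.tmul_mul_tmul] using
        Subalgebra.mem_center_iff.1 hz (x ⊗ₜ[K] (1 : B)))
  obtain ⟨c, rfl⟩ := Algebra.mem_bot.1 (Algebra.IsCentral.out ha)
  exact Algebra.mem_bot.2 ⟨c, (Algebra.TensorProduct.algebraMap_apply c)⟩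

/-- **Base changes of central algebras are central.** -/
theorem isCentral_baseChange (L : Type*) [Field L] [Algebra K L] [Algebra.IsCentral K B] :
    Algebra.IsCentral L (L ⊗[K] B) := by
  refine ⟨fun z hz => ?_⟩
  obtain ⟨l, rfl⟩ := exists_tmul_one_of_commute fun x => Subalgebra.mem_center_iff.1 hz _
  exact Algebra.mem_bot.2 ⟨l, by simp [Algebra.TensorProduct.algebraMap_apply]⟩

variable [IsSimpleRing A] [IsSimpleRing B] [Algebra.IsCentral K B] [FiniteDimensional K A]
  [FiniteDimensional K B]

/-- `M_n(A) ⊗ B ≅ M_n(A ⊗ B)`. -/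
def matrixTensorEquiv (n : ℕ) [NeZero n] :
    Matrix (Fin n) (Fin n) A ⊗[K] B ≃ₐ[K] Matrix (Fin n) (Fin n) (A ⊗[K] B) :=
  have := FA.CSA.isSimpleRing_tensorProduct K (Matrix (Fin n) (Fin n) A) B
  have : Nontrivial (A ⊗[K] B) := (FA.CSA.isSimpleRing_tensorProduct K A B).instNontrivial
  equivOfFinrankEq (Algebra.TensorProduct.lift
    (Algebra.TensorProduct.includeLeft (R := K) (S := K) (A := A) (B := B)).mapMatrix
    ((Matrix.scalarAlgHom (Fin n) K).comp Algebra.TensorProduct.includeRight)
    fun X y => Matrix.ext fun i j => by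
      simp [Matrix.scalarAlgHom, Matrix.scalar_apply, Matrix.mul_diagonal, Matrix.diagonal_mul,
        Algebra.TensorProduct.tmul_mul_tmul])
    (by rw [Module.finrank_tensorProduct, Module.finrank_matrix, Module.finrank_matrix,
      Module.finrank_tensorProduct, mul_assoc])

/-- `L ⊗ M_n(B) ≅ M_n(L ⊗ B)`. -/
def baseChangeMatrixEquiv (L : Type*) [Field L] [Algebra K L] (n : ℕ) [NeZero n] :
    L ⊗[K] Matrix (Fin n) (Fin n) B ≃ₐ[L] Matrix (Fin n) (Fin n) (L ⊗[K] B) :=
  have := FA.CSA.isSimpleRing_tensorProduct K L (Matrix (Fin n) (Fin n) B)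
  have : Nontrivial (L ⊗[K] B) := (FA.CSA.isSimpleRing_tensorProduct K L B).instNontrivial
  equivOfFinrankEq (Algebra.TensorProduct.lift
    (Algebra.ofId L (Matrix (Fin n) (Fin n) (L ⊗[K] B)))
    (Algebra.TensorProduct.includeRight : B →ₐ[K] L ⊗[K] B).mapMatrix
    fun l X => Algebra.commutes l _)
    (by rw [Module.finrank_baseChange, Module.finrank_matrix, Module.finrank_matrix,
      Module.finrank_baseChange])

/-- `B ⊗ Bᵐᵒᵖ ≅ M_d(K)`, `d = dim B`. -/
def tensorOpEquiv (B : Type*) [Ring B] [Algebra K B] [IsSimpleRing B] [Algebra.IsCentral K B]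
    [FiniteDimensional K B] :
    B ⊗[K] Bᵐᵒᵖ ≃ₐ[K] Matrix (Fin (finrank K B)) (Fin (finrank K B)) K :=
  have := FA.CSA.isSimpleRing_tensorProduct K B Bᵐᵒᵖ
  (equivOfFinrankEq (AlgHom.mulLeftRight K B) (by
    rw [Module.finrank_tensorProduct, Module.finrank_linearMap,
      ← (MulOpposite.opLinearEquiv K : B ≃ₗ[K] Bᵐᵒᵖ).finrank_eq])).trans
    (algEquivMatrix (Module.finBasis K B))

omit [IsSimpleRing A] [IsSimpleRing B] [Algebra.IsCentral K B] [FiniteDimensional K A]
  [FiniteDimensional K B] in
/-- **Uniqueness at the trivial class**: `M_N(D) ≅ M_b(K)` forces `dim D = 1`. -/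
theorem finrank_eq_one_of_matrix {D : Type*} [DivisionRing D] [Algebra K D] [FiniteDimensional K D]
    {N b : ℕ} (hN : N ≠ 0) (e : Matrix (Fin N) (Fin N) D ≃ₐ[K] Matrix (Fin b) (Fin b) K) :
    finrank K D = 1 := by
  classical
  have hdim : N * N * finrank K D = b * b := by
    have h := e.toLinearEquiv.finrank_eq
    rwa [Module.finrank_matrix, Module.finrank_matrix, Fintype.card_fin, Fintype.card_fin,
      Module.finrank_self, mul_one] at h
  let φ : Matrix (Fin N) (Fin N) D ≃ₐ[K] Module.End K (Fin b → K) := e.trans Matrix.toLinAlgEquiv'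
  let P : Fin N → Module.End K (Fin b → K) := fun i => φ (Matrix.single i i (1 : D))
  let W : Fin N → Submodule K (Fin b → K) := fun i => LinearMap.range (P i)
  -- the space is the sum of the images of the diagonal idempotents
  have hsum : ∑ i, P i = 1 := by
    rw [← map_sum, show ∑ i : Fin N, Matrix.single i i (1 : D) = 1 by
      refine Matrix.ext fun a c => ?_
      simp [Matrix.sum_apply, Matrix.single_apply, Matrix.one_apply, Finset.sum_ite_eq', ite_and],
      map_one]
  have horth : ∀ i j, i ≠ j → ∀ v, P j (P i v) = 0 := fun i j hij v => by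
    rw [← Module.End.mul_apply, ← map_mul, Matrix.single_mul_single_of_ne _ _ _ _ (Ne.symm hij),
      map_zero, LinearMap.zero_apply]
  have hidem : ∀ i v, P i (P i v) = P i v := fun i v => by
    rw [← Module.End.mul_apply, ← map_mul, Matrix.single_mul_single_same, one_mul]
  let S : (Fin b → K) →ₗ[K] ((i : Fin N) → W i) :=
    LinearMap.pi fun i => LinearMap.codRestrict (W i) (P i) fun v => LinearMap.mem_range_self _ v
  have hS : Function.Surjective S := fun w => by
    refine ⟨∑ i, (w i : Fin b → K), funext fun j => Subtype.ext ?_⟩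
    show P j (∑ i, (w i : Fin b → K)) = (w j : Fin b → K)
    rw [map_sum, Finset.sum_eq_single j (fun i _ hij => ?_) fun h => (h (Finset.mem_univ _)).elim]
    · obtain ⟨v, hv⟩ := (w j).2
      rw [← hv, hidem]
    · obtain ⟨v, hv⟩ := (w i).2
      rw [← hv, horth i j hij]
  have hb : ∑ i, finrank K (W i) ≤ b := by
    rw [← Module.finrank_pi_fintype]
    exact (LinearMap.finrank_le_finrank_of_surjective hS).trans (Module.finrank_fin_fun K).le
  -- each image is a vector space over `D`
  have hbig : ∀ i, finrank K D ≤ finrank K (W i) := fun i => by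
    obtain ⟨y, hy⟩ : ∃ y, P i y ≠ 0 := by
      by_contra! h
      have h0 : Matrix.single i i (1 : D) = 0 :=
        φ.injective ((LinearMap.ext h : P i = 0).trans (map_zero φ).symm)
      simpa using congrFun₂ h0 i i
    let M : D →ₗ[K] Fin b → K :=
      (LinearMap.applyₗ (P i y)) ∘ₗ φ.toLinearMap ∘ₗ Matrix.singleLinearMap K i i
    have hM : Function.Injective M := by
      rw [injective_iff_map_eq_zero]
      intro q hq
      by_contra hq0
      apply hy
      have h := congrArg (φ (Matrix.single i i q⁻¹)) hq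
      have h' : φ (Matrix.single i i q⁻¹) (φ (Matrix.single i i q) (P i y)) = 0 := by
        simpa [M] using h
      rw [← Module.End.mul_apply, ← map_mul, Matrix.single_mul_single_same,
        inv_mul_cancel₀ hq0] at h'
      rwa [show φ (Matrix.single i i (1 : D)) = P i from rfl, hidem] at h'
    refine LinearMap.finrank_le_finrank_of_injective
      (f := LinearMap.codRestrict (W i) M fun q => ⟨M q, ?_⟩)
      (fun q q' h => hM (congrArg Subtype.val h))
    show P i (φ (Matrix.single i i q) (P i y)) = φ (Matrix.single i i q) (P i y)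
    rw [← Module.End.mul_apply (P i), ← map_mul, Matrix.single_mul_single_same, one_mul]
  have h1 : N * finrank K D ≤ b :=
    le_trans (le_of_eq_of_le (by simp) (Finset.sum_le_sum fun i _ => hbig i)) hb
  have hpos : 0 < finrank K D := Module.finrank_pos
  have h2 : (N * finrank K D) * (N * finrank K D) ≤ N * N * finrank K D :=
    hdim ▸ Nat.mul_le_mul h1 h1
  have h3 : 0 < N * N := Nat.mul_pos (Nat.pos_of_ne_zero hN) (Nat.pos_of_ne_zero hN)
  nlinarith

omit [IsSimpleRing B] [Algebra.IsCentral K B] [FiniteDimensional K B] in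
/-- An algebra with a matrix algebra of the trivial class is a matrix algebra over `K`. -/
theorem exists_algEquiv_matrix {a b : ℕ} (ha : a ≠ 0)
    (e : Matrix (Fin a) (Fin a) A ≃ₐ[K] Matrix (Fin b) (Fin b) K) :
    ∃ n, n ≠ 0 ∧ Nonempty (A ≃ₐ[K] Matrix (Fin n) (Fin n) K) := by
  have := IsArtinianRing.of_finite K A
  obtain ⟨n, hn, D, _, _, _, ⟨f⟩⟩ := IsSimpleRing.exists_algEquiv_matrix_divisionRing_finite K A
  have h1 : finrank K D = 1 := finrank_eq_one_of_matrix (mul_ne_zero ha (NeZero.ne n))
    ((Matrix.reindexAlgEquiv K D finProdFinEquiv).symm.trans <|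
      (Matrix.compAlgEquiv _ _ _ _).symm.trans <| f.symm.mapMatrix.trans e)
  exact ⟨n, NeZero.ne n, ⟨f.trans (AlgEquiv.mapMatrix
    (equivOfFinrankEq (Algebra.ofId K D) (by rw [Module.finrank_self, h1])).symm)⟩⟩

end FA.BrauerTheory

end
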