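import Fermat.Agent.BrauerTheory.Group
import Fermat.Agent.CyclicAlgebra.Splitting
import Mathlib.Algebra.Central.TensorProduct
import Mathlib.RingTheory.Flat.Basic

/-!
# Cyclic algebras in the Brauer group

`(L/K, σ, a) ⊗ (L/K, σ, b)` has the class of `(L/K, σ, a b)`, so `a ↦ (L/K, σ, a)` is a
homomorphism; its kernel is the group of norms.
-/

set_option autoImplicit false

noncomputable section

universe u

open scoped TensorProduct
open Module

namespace FA.BrauerTheory

open FA.CyclicAlgebra

variable {K : Type u} [Field K] {L : Type u} [Field L] [Algebra K L] [FiniteDimensional K L]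
  [IsGalois K L]

/-- `x ⊗ y ↦ (g ↦ x g(y))`, the splitting `L ⊗ L ≅ L ^ G`. -/
def galoisSplit : L ⊗[K] L →ₐ[L] ((L ≃ₐ[K] L) → L) :=
  Algebra.TensorProduct.lift (Algebra.ofId L _) (AlgHom.pi fun g : L ≃ₐ[K] L => g.toAlgHom)
    fun _ _ => Commute.all _ _

omit [FiniteDimensional K L] [IsGalois K L] in
theorem galoisSplit_apply (x y : L) (g : L ≃ₐ[K] L) : galoisSplit (x ⊗ₜ[K] y) g = x * g y := by
  simp [galoisSplit]

theorem galoisSplit_bijective : Function.Bijective (galoisSplit (K := K) (L := L)) := by
  classical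
  have hdim : finrank L (L ⊗[K] L) = finrank L ((L ≃ₐ[K] L) → L) := by
    rw [Module.finrank_baseChange, Module.finrank_fintype_fun_eq_card,
      ← Nat.card_eq_fintype_card, IsGalois.card_aut_eq_finrank]
  have hsurj : Function.Surjective galoisSplit (α := L ⊗[K] L) := by
    refine LinearMap.range_eq_top.1 (Submodule.eq_top_iff'.2 fun v => ?_ :
      LinearMap.range (galoisSplit (K := K) (L := L)).toLinearMap = ⊤)
    by_contra hv
    obtain ⟨φ, hφv, hφ⟩ := Submodule.exists_dual_map_eq_bot_of_notMem hv inferInstance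
    refine hφv ?_
    have hzero : ∀ g, φ (Pi.single g 1) = 0 := fun g => by
      refine Fintype.linearIndependent_iff.1 ((linearIndependent_monoidHom L L).comp
        (fun h : L ≃ₐ[K] L => (h : L ≃ₐ[K] L).toRingEquiv.toRingHom.toMonoidHom)
        fun h h' e => AlgEquiv.ext fun x => DFunLike.congr_fun e x)
        (fun h => φ (Pi.single h 1)) (funext fun y => ?_) g
      have h0 : φ (galoisSplit ((1 : L) ⊗ₜ[K] y)) = 0 := by
        rw [← Submodule.mem_bot (R := L), ← hφ]
        exact Submodule.mem_map_of_mem (LinearMap.mem_range_self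
          (galoisSplit (K := K) (L := L)).toLinearMap ((1 : L) ⊗ₜ[K] y))
      rw [← Finset.univ_sum_single (galoisSplit ((1 : L) ⊗ₜ[K] y)), map_sum] at h0
      simp only [Function.comp_apply, Finset.sum_apply, Pi.smul_apply, smul_eq_mul, Pi.zero_apply]
      rw [← h0]
      refine Finset.sum_congr rfl fun h _ => ?_
      rw [show Pi.single h (galoisSplit ((1 : L) ⊗ₜ[K] y) h) = h y • Pi.single h (1 : L) by
        rw [galoisSplit_apply, one_mul, ← Pi.single_smul', smul_eq_mul, mul_one], map_smul,
        smul_eq_mul, mul_comm]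
      rfl
    rw [← Finset.univ_sum_single v, map_sum]
    refine Finset.sum_eq_zero fun g _ => ?_
    rw [show Pi.single g (v g) = v g • Pi.single g (1 : L) by
      rw [← Pi.single_smul', smul_eq_mul, mul_one], map_smul, hzero, smul_zero]
  exact ⟨(LinearMap.injective_iff_surjective_of_finrank_eq_finrank
    (f := (galoisSplit (K := K) (L := L)).toLinearMap) hdim).2 hsurj, hsurj⟩

omit [FiniteDimensional K L] [IsGalois K L] in
/-- `[L:K]` orthogonal idempotents force an algebra of dimension `[L:K] ^ 2` to be split. -/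
theorem nonempty_matrix_of_idempotents {C : Type u} [Ring C] [Algebra K C] [IsSimpleRing C]
    [FiniteDimensional K C] {ι : Type*} [Fintype ι] {e : ι → C} (he0 : ∀ i, e i ≠ 0)
    (hid : ∀ i, e i * e i = e i) (horth : ∀ i j, i ≠ j → e i * e j = 0)
    (hdim : finrank K C = Fintype.card ι ^ 2) :
    ∃ n, n ≠ 0 ∧ Nonempty (C ≃ₐ[K] Matrix (Fin n) (Fin n) K) := by
  classical
  have := IsArtinianRing.of_finite K C
  obtain ⟨r, hr, D, _, _, _, ⟨f⟩⟩ := IsSimpleRing.exists_algEquiv_matrix_divisionRing_finite K C
  let P : ι → (Fin r → D) →ₗ[D] Fin r → D := fun i => (f (e i)).vecMulLinear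
  have hP : ∀ i v, P i v = Matrix.vecMul v (f (e i)) := fun i v => rfl
  let W : ι → Submodule D (Fin r → D) := fun i => LinearMap.range (P i)
  let S : (Fin r → D) →ₗ[D] ((i : ι) → W i) :=
    LinearMap.pi fun i => LinearMap.codRestrict (W i) (P i) fun v => LinearMap.mem_range_self _ v
  have hS : Function.Surjective S := fun w => by
    refine ⟨∑ i, (w i : Fin r → D), funext fun j => Subtype.ext ?_⟩
    show P j (∑ i, (w i : Fin r → D)) = (w j : Fin r → D)
    rw [map_sum, Finset.sum_eq_single j (fun i _ hij => ?_) fun h => (h (Finset.mem_univ _)).elim]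
    · obtain ⟨v, hv⟩ := (w j).2
      rw [← hv, hP, hP, Matrix.vecMul_vecMul, ← map_mul, hid]
    · obtain ⟨v, hv⟩ := (w i).2
      rw [← hv, hP, hP, Matrix.vecMul_vecMul, ← map_mul, horth i j hij, map_zero,
        Matrix.vecMul_zero]
  have hle : Fintype.card ι ≤ r := by
    have h := LinearMap.finrank_le_finrank_of_surjective hS
    rw [Module.finrank_pi_fintype, Module.finrank_fin_fun] at h
    refine le_trans ?_ h
    rw [Fintype.card_eq_sum_ones]
    refine Finset.sum_le_sum fun i _ => Nat.one_le_iff_ne_zero.2 fun h0 => ?_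
    rw [Submodule.finrank_eq_zero, LinearMap.range_eq_bot] at h0
    refine he0 i (f.injective ((Matrix.ext_iff_vecMul).2 fun v => ?_))
    rw [map_zero, Matrix.vecMul_zero]
    exact LinearMap.congr_fun h0 v
  have h1 : finrank K D = 1 := by
    have h := f.toLinearEquiv.finrank_eq
    rw [hdim, Module.finrank_matrix, Fintype.card_fin, sq] at h
    have hpos : 0 < finrank K D := Module.finrank_pos
    nlinarith [Nat.mul_le_mul hle hle, Nat.pos_of_ne_zero (NeZero.ne r)]
  exact ⟨r, NeZero.ne r, ⟨f.trans (AlgEquiv.mapMatrix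
    (equivOfFinrankEq (Algebra.ofId K D) (by rw [Module.finrank_self, h1])).symm)⟩⟩

variable {σ : L ≃ₐ[K] L}

/-- **`(a) (b) = (a b)`.** -/
theorem mk_mul_cyclic (hσ : ∀ g, g ∈ Subgroup.zpowers σ) {a b : K} (ha : a ≠ 0) (hb : b ≠ 0)
    {A B C : CSA.{u, u} K} (P : Presentation σ a A) (Q : Presentation σ b B)
    (R : Presentation σ (a * b) C) (hA : finrank K A = finrank K L ^ 2)
    (hB : finrank K B = finrank K L ^ 2) (hC : finrank K C = finrank K L ^ 2) :
    mk A * mk B = mk C := by
  classical
  have hab : a * b ≠ 0 := mul_ne_zero ha hb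
  have : Algebra.IsCentral K ((A : Type u) ⊗[K] (B : Type u)) := isCentral_tensorProduct
  have := FA.CSA.isSimpleRing_tensorProduct K (A : Type u) (B : Type u)
  -- `(a b)` sits inside `A ⊗ B`
  let F : L ⊗[K] L →ₐ[K] (A : Type u) ⊗[K] (B : Type u) := Algebra.TensorProduct.map P.f Q.f
  let U : (A : Type u) ⊗[K] (B : Type u) := P.u ⊗ₜ[K] Q.u
  let τ : L ⊗[K] L →ₐ[K] L ⊗[K] L := Algebra.TensorProduct.map σ.toAlgHom σ.toAlgHom
  have hU : ∀ z, U * F z = F (τ z) * U := fun z => by
    induction z using TensorProduct.induction_on with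
    | zero => simp
    | tmul x y => simp [F, U, τ, P.conj, Q.conj]
    | add y z hy hz => simp only [map_add, mul_add, add_mul, hy, hz]
  let PR : Presentation σ (a * b) ((A : Type u) ⊗[K] (B : Type u)) :=
    { f := F.comp Algebra.TensorProduct.includeLeft
      u := U
      conj := fun x => by
        show U * F (x ⊗ₜ[K] 1) = F (σ x ⊗ₜ[K] 1) * U
        rw [hU]
        simp [τ]
      pow_eq := by
        show (P.u ⊗ₜ[K] Q.u) ^ finrank K L = algebraMap K ((A : Type u) ⊗[K] (B : Type u)) (a * b)
        rw [Algebra.TensorProduct.tmul_pow, P.pow_eq, Q.pow_eq, Algebra.algebraMap_eq_smul_one,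
          Algebra.algebraMap_eq_smul_one, TensorProduct.smul_tmul_smul,
          ← Algebra.TensorProduct.one_def, Algebra.algebraMap_eq_smul_one] }
  -- the copy of `C`
  let e := LinearEquiv.ofBijective R.coeff (R.coeff_bijective hσ hab hC)
  have he : ∀ c, e c = R.coeff c := fun c => rfl
  let Φ : C →ₐ[K] ((A : Type u) ⊗[K] (B : Type u)) :=
    AlgHom.ofLinearMap (PR.coeff ∘ₗ e.symm.toLinearMap)
    (by rw [LinearMap.comp_apply, LinearEquiv.coe_coe, ← R.coeff_one, ← he,
      LinearEquiv.symm_apply_apply, PR.coeff_one])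
    fun x y => by
      obtain ⟨c, rfl⟩ := e.surjective x
      obtain ⟨d, rfl⟩ := e.surjective y
      rw [show e c * e d = e (Presentation.mulCoord σ (a * b) c d) from R.coeff_mul c d]
      simp only [LinearMap.comp_apply, LinearEquiv.coe_coe, LinearEquiv.symm_apply_apply,
        PR.coeff_mul]
  have hΦ : Function.Injective Φ := Φ.toRingHom.injective
  have : IsSimpleRing Φ.range :=
    IsSimpleRing.of_ringEquiv (AlgEquiv.ofInjective Φ hΦ).toRingEquiv inferInstance
  let Z := Subalgebra.centralizer K (Φ.range : Set ((A : Type u) ⊗[K] (B : Type u)))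
  have : IsSimpleRing Z := FA.CSA.isSimpleRing_centralizer Φ.range
  have hT : finrank K ((A : Type u) ⊗[K] (B : Type u)) = finrank K L ^ 2 * finrank K L ^ 2 :=
    Module.finrank_tensorProduct.trans (by rw [hA, hB])
  have hcent := FA.CSA.finrank_centralizer Φ.range
  rw [← (AlgEquiv.ofInjective Φ hΦ).toLinearEquiv.finrank_eq, hC, hT] at hcent
  have hZ : finrank K Z = finrank K L ^ 2 :=
    Nat.eq_of_mul_eq_mul_left (pow_pos Module.finrank_pos 2) hcent
  have := FA.CSA.isSimpleRing_tensorProduct K Z (C : Type u)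
  have hZC' : finrank K ((Z : Type u) ⊗[K] (C : Type u)) =
      finrank K ((A : Type u) ⊗[K] (B : Type u)) :=
    Module.finrank_tensorProduct.trans (by rw [hZ, hC, hT])
  let E : (Z : Type u) ⊗[K] (C : Type u) ≃ₐ[K] ((A : Type u) ⊗[K] (B : Type u)) :=
    equivOfFinrankEq (R := (Z : Type u) ⊗[K] (C : Type u))
      (S := (A : Type u) ⊗[K] (B : Type u)) (Algebra.TensorProduct.lift Z.val Φ
      fun z c => ((Subalgebra.mem_centralizer_iff K).1 z.2 (Φ c) ⟨c, rfl⟩).symm) hZC'
  have : Algebra.IsCentral K ((Z : Type u) ⊗[K] (C : Type u)) :=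
    Algebra.IsCentral.of_algEquiv K _ _ E.symm
  have : Algebra.IsCentral K Z := Algebra.IsCentral.left_of_tensor_of_field K Z C
  -- the centraliser has `n` orthogonal idempotents
  let ψ := LinearEquiv.ofBijective (galoisSplit (K := K) (L := L)).toLinearMap galoisSplit_bijective
  have hψ : ∀ z, ψ z = galoisSplit z := fun z => rfl
  have hcomm : ∀ g : L ≃ₐ[K] L, Commute σ g := fun g => by
    obtain ⟨m, rfl⟩ := hσ g
    exact (Commute.refl σ).zpow_right m
  have hτ : ∀ z g, galoisSplit (τ z) g = σ (galoisSplit z g) := fun z g => by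
    induction z using TensorProduct.induction_on with
    | zero => simp
    | tmul x y =>
      simp only [τ, Algebra.TensorProduct.map_tmul, galoisSplit_apply, map_mul,
        AlgEquiv.coe_toAlgHom]
      rw [← AlgEquiv.mul_apply, ← AlgEquiv.mul_apply, (hcomm g).eq]
    | add y z hy hz => simp only [map_add, Pi.add_apply, hy, hz]
  let p : (L ≃ₐ[K] L) → L ⊗[K] L := fun g => ψ.symm (Pi.single g 1)
  have hp : ∀ g, galoisSplit (p g) = Pi.single g 1 := fun g => ψ.apply_symm_apply _
  have hfix : ∀ g, τ (p g) = p g := fun g => galoisSplit_bijective.1 (funext fun h => by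
    rw [hτ, hp, Pi.single_apply]
    split_ifs <;> simp)
  have hFinj : Function.Injective F := by
    have h1 : Function.Injective (LinearMap.rTensor L P.f.toLinearMap) :=
      Module.Flat.rTensor_preserves_injective_linearMap _ P.f.toRingHom.injective
    have h2 : Function.Injective (LinearMap.lTensor (A : Type u) Q.f.toLinearMap) :=
      Module.Flat.lTensor_preserves_injective_linearMap _ Q.f.toRingHom.injective
    have e : ∀ z, F z = LinearMap.lTensor (A : Type u) Q.f.toLinearMap
        (LinearMap.rTensor L P.f.toLinearMap z) := fun z => by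
      induction z using TensorProduct.induction_on with
      | zero => simp
      | tmul x y => simp [F]
      | add y z hy hz => simp only [map_add, hy, hz]
    intro x y h
    rw [e, e] at h
    exact h1 (h2 h)
  have hmem : ∀ g, F (p g) ∈ Z := fun g => (Subalgebra.mem_centralizer_iff K).2 fun t ht => by
    obtain ⟨c, rfl⟩ := ht
    have hu : Commute U (F (p g)) := by
      show U * F (p g) = F (p g) * U
      rw [hU, hfix]
    show Φ c * F (p g) = F (p g) * Φ c
    rw [show Φ c = PR.coeff (e.symm c) from rfl, PR.coeff_apply]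
    exact Commute.sum_left _ _ _ fun i _ => (Commute.mul_left
      ((show Commute (F (e.symm c i ⊗ₜ[K] (1 : L))) (F (p g)) from (Commute.all _ _).map F))
      (hu.pow_left _))
  obtain ⟨n, hn, ⟨ez⟩⟩ := nonempty_matrix_of_idempotents (C := Z)
    (e := fun g => ⟨F (p g), hmem g⟩)
    (fun g h => by
      have h' : galoisSplit (p g) = 0 := by
        rw [hFinj ((congrArg Subtype.val h).trans (map_zero F).symm), map_zero]
      rw [hp] at h'
      exact one_ne_zero (Pi.single_eq_zero_iff.1 h'))
    (fun g => Subtype.ext (by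
      show F (p g) * F (p g) = F (p g)
      rw [← map_mul]
      exact congrArg F (galoisSplit_bijective.1 (by
        rw [map_mul, hp, ← Pi.single_mul, one_mul]))))
    (fun g h hgh => Subtype.ext (by
      show F (p g) * F (p h) = 0
      rw [← map_mul, ← map_zero F]
      exact congrArg F (galoisSplit_bijective.1 (by
        rw [map_mul, hp, hp, map_zero]
        funext k
        rcases eq_or_ne k g with rfl | hk
        · simp [Pi.single_eq_of_ne hgh]
        · simp [Pi.single_eq_of_ne hk]))))
    (by rw [hZ, ← Nat.card_eq_fintype_card, IsGalois.card_aut_eq_finrank])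
  let ZC : CSA.{u, u} K := { __ := AlgCat.of K Z }
  have hZC : mk ZC = 1 := mk_eq_one_iff.2 ⟨n, hn, ⟨ez⟩⟩
  rw [mk_mul, show mk (tensorCSA A B) = mk (tensorCSA ZC C) from
    mk_eq_iff.2 (equivalent_of_algEquiv E.symm), ← mk_mul, hZC, one_mul]

end FA.BrauerTheory

end
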