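import Fermat.Agent.BrauerTheory.Algebras
import Mathlib.Algebra.BrauerGroup.Defs
import Mathlib.LinearAlgebra.Matrix.Unique

/-!
# The Brauer group is an abelian group

The product is the tensor product, the inverse the opposite algebra.
-/

set_option autoImplicit false

noncomputable section

universe u

open scoped TensorProduct
open Module

namespace FA.BrauerTheory

variable {K : Type u} [Field K]

/-- Isomorphic algebras have the same class. -/
theorem equivalent_of_algEquiv {A B : CSA.{u, u} K} (e : A ≃ₐ[K] B) : IsBrauerEquivalent A B :=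
  ⟨1, 1, one_ne_zero, one_ne_zero, ⟨e.mapMatrix⟩⟩

/-- A matrix algebra over `B` has the class of `B`. -/
theorem equivalent_of_algEquiv_matrix {A B : CSA.{u, u} K} {n : ℕ} (hn : n ≠ 0)
    (e : A ≃ₐ[K] Matrix (Fin n) (Fin n) B) : IsBrauerEquivalent A B :=
  ⟨1, n, one_ne_zero, hn, ⟨(e.mapMatrix.trans (Matrix.compAlgEquiv _ _ _ _)).trans
    (Matrix.reindexAlgEquiv _ _ (Equiv.uniqueProd (Fin n) (Fin 1)))⟩⟩

/-- The trivial class. -/
def trivialCSA (K : Type u) [Field K] : CSA.{u, u} K := { __ := AlgCat.of K K }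

/-- The tensor product of two central simple algebras. -/
def tensorCSA (A B : CSA.{u, u} K) : CSA.{u, u} K :=
  { __ := AlgCat.of K (A ⊗[K] B)
    isCentral := isCentral_tensorProduct
    isSimple := FA.CSA.isSimpleRing_tensorProduct K A B
    fin_dim := inferInstanceAs (FiniteDimensional K (A ⊗[K] B)) }

/-- The opposite algebra. -/
def oppositeCSA (A : CSA.{u, u} K) : CSA.{u, u} K := { __ := AlgCat.of K (A : Type u)ᵐᵒᵖ }

theorem tensor_comm (A B : CSA.{u, u} K) :
    IsBrauerEquivalent (tensorCSA A B) (tensorCSA B A) :=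
  equivalent_of_algEquiv (Algebra.TensorProduct.comm K A B)

theorem tensor_congr_left {A A' : CSA.{u, u} K} (B : CSA.{u, u} K) (h : IsBrauerEquivalent A A') :
    IsBrauerEquivalent (tensorCSA A B) (tensorCSA A' B) := by
  obtain ⟨n, m, hn, hm, ⟨e⟩⟩ := h
  have : NeZero n := ⟨hn⟩
  have : NeZero m := ⟨hm⟩
  exact ⟨n, m, hn, hm, ⟨(matrixTensorEquiv (K := K) (A := A) (B := B) n).symm.trans
    ((Algebra.TensorProduct.congr e AlgEquiv.refl).trans
      (matrixTensorEquiv (K := K) (A := A') (B := B) m))⟩⟩

theorem tensor_congr {A A' B B' : CSA.{u, u} K} (h : IsBrauerEquivalent A A')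
    (h' : IsBrauerEquivalent B B') : IsBrauerEquivalent (tensorCSA A B) (tensorCSA A' B') :=
  (tensor_congr_left B h).trans <| (tensor_comm A' B).trans <|
    (tensor_congr_left A' h').trans (tensor_comm B' A')

theorem opposite_congr {A B : CSA.{u, u} K} (h : IsBrauerEquivalent A B) :
    IsBrauerEquivalent (oppositeCSA A) (oppositeCSA B) := by
  obtain ⟨n, m, hn, hm, ⟨e⟩⟩ := h
  exact ⟨n, m, hn, hm, ⟨AlgEquiv.mopMatrix.trans (e.op.trans AlgEquiv.mopMatrix.symm)⟩⟩

instance instMulBrauerGroup : Mul (BrauerGroup.{u, u} K) :=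
  ⟨Quotient.map₂ tensorCSA fun _ _ h _ _ h' => tensor_congr h h'⟩

instance instOneBrauerGroup : One (BrauerGroup.{u, u} K) := ⟨Quotient.mk _ (trivialCSA K)⟩

instance instInvBrauerGroup : Inv (BrauerGroup.{u, u} K) :=
  ⟨Quotient.map oppositeCSA fun _ _ h => opposite_congr h⟩

/-- The class of a central simple algebra. -/
def mk (A : CSA.{u, u} K) : BrauerGroup.{u, u} K := Quotient.mk _ A

theorem mk_eq_iff {A B : CSA.{u, u} K} : mk A = mk B ↔ IsBrauerEquivalent A B := Quotient.eq

theorem mk_mul (A B : CSA.{u, u} K) : mk A * mk B = mk (tensorCSA A B) := rfl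

theorem mk_inv (A : CSA.{u, u} K) : (mk A)⁻¹ = mk (oppositeCSA A) := rfl

theorem one_eq : (1 : BrauerGroup.{u, u} K) = mk (trivialCSA K) := rfl

/-- **The Brauer group.** -/
instance instCommGroupBrauerGroup : CommGroup (BrauerGroup.{u, u} K) where
  mul_assoc x y z := Quotient.inductionOn₃ x y z fun A B C => Quotient.sound
    (equivalent_of_algEquiv (Algebra.TensorProduct.assoc K K K A B C))
  one_mul x := Quotient.inductionOn x fun A => Quotient.sound
    (equivalent_of_algEquiv (Algebra.TensorProduct.lid K A))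
  mul_one x := Quotient.inductionOn x fun A => Quotient.sound
    ((tensor_comm A (trivialCSA K)).trans (equivalent_of_algEquiv (Algebra.TensorProduct.lid K A)))
  inv_mul_cancel x := Quotient.inductionOn x fun A => Quotient.sound
    ((tensor_comm (oppositeCSA A) A).trans
      (equivalent_of_algEquiv_matrix (Module.finrank_pos (R := K) (M := A)).ne'
        (tensorOpEquiv A)))
  mul_comm x y := Quotient.inductionOn₂ x y fun A B => Quotient.sound (tensor_comm A B)

/-- **The class of `A` is trivial iff `A` is a matrix algebra.** -/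
theorem mk_eq_one_iff {A : CSA.{u, u} K} :
    mk A = 1 ↔ ∃ n, n ≠ 0 ∧ Nonempty (A ≃ₐ[K] Matrix (Fin n) (Fin n) K) := by
  rw [one_eq, mk_eq_iff]
  constructor
  · rintro ⟨a, b, ha, -, ⟨e⟩⟩
    exact exists_algEquiv_matrix ha e
  · rintro ⟨n, hn, ⟨e⟩⟩
    exact equivalent_of_algEquiv_matrix hn e

section baseChange

variable (L : Type u) [Field L] [Algebra K L]

/-- The base change of a central simple algebra. -/
def baseChangeCSA (A : CSA.{u, u} K) : CSA.{u, u} L :=
  { __ := AlgCat.of L (L ⊗[K] A)
    isCentral := isCentral_baseChange L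
    isSimple := FA.CSA.isSimpleRing_tensorProduct K L A
    fin_dim := inferInstanceAs (FiniteDimensional L (L ⊗[K] A)) }

theorem baseChange_congr {A B : CSA.{u, u} K} (h : IsBrauerEquivalent A B) :
    IsBrauerEquivalent (baseChangeCSA L A) (baseChangeCSA L B) := by
  obtain ⟨n, m, hn, hm, ⟨e⟩⟩ := h
  have : NeZero n := ⟨hn⟩
  have : NeZero m := ⟨hm⟩
  exact ⟨n, m, hn, hm, ⟨(baseChangeMatrixEquiv (K := K) (B := A) L n).symm.trans
    ((Algebra.TensorProduct.congr AlgEquiv.refl e).trans
      (baseChangeMatrixEquiv (K := K) (B := B) L m))⟩⟩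

/-- `(L ⊗ A) ⊗ (L ⊗ B) ≅ L ⊗ (A ⊗ B)`. -/
def baseChangeTensorEquiv (A B : CSA.{u, u} K) :
    (L ⊗[K] A) ⊗[L] (L ⊗[K] B) ≃ₐ[L] L ⊗[K] (A ⊗[K] B) :=
  have := FA.CSA.isSimpleRing_tensorProduct K L A
  have := FA.CSA.isSimpleRing_tensorProduct K L B
  have : Algebra.IsCentral L (L ⊗[K] B) := isCentral_baseChange L
  have := FA.CSA.isSimpleRing_tensorProduct L (L ⊗[K] A) (L ⊗[K] B)
  have := FA.CSA.isSimpleRing_tensorProduct K (A : Type u) B
  have : Algebra.IsCentral K ((A : Type u) ⊗[K] (B : Type u)) := isCentral_tensorProduct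
  have : Nontrivial (L ⊗[K] (A ⊗[K] B)) :=
    (FA.CSA.isSimpleRing_tensorProduct K L (A ⊗[K] B)).instNontrivial
  equivOfFinrankEq (Algebra.TensorProduct.lift
    (Algebra.TensorProduct.map (AlgHom.id L L) Algebra.TensorProduct.includeLeft)
    (Algebra.TensorProduct.map (AlgHom.id L L) Algebra.TensorProduct.includeRight)
    fun x y => by
      induction x using TensorProduct.induction_on with
      | zero => simp
      | add u v hu hv => rw [map_add]; exact hu.add_left hv
      | tmul l a =>
        induction y using TensorProduct.induction_on with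
        | zero => simp
        | add u v hu hv => rw [map_add]; exact hu.add_right hv
        | tmul m b => simp [Commute, SemiconjBy, Algebra.TensorProduct.tmul_mul_tmul, mul_comm])
    (by rw [Module.finrank_tensorProduct, Module.finrank_baseChange, Module.finrank_baseChange,
      Module.finrank_baseChange, Module.finrank_tensorProduct])

/-- **Restriction `Br(K) → Br(L)`.** -/
def restriction : BrauerGroup.{u, u} K →* BrauerGroup.{u, u} L where
  toFun := Quotient.map (baseChangeCSA L) fun _ _ h => baseChange_congr L h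
  map_one' := Quotient.sound (equivalent_of_algEquiv (Algebra.TensorProduct.rid K L L))
  map_mul' x y := Quotient.inductionOn₂ x y fun A B => (Quotient.sound
    (equivalent_of_algEquiv (baseChangeTensorEquiv L A B))).symm

theorem restriction_mk (A : CSA.{u, u} K) : restriction L (mk A) = mk (baseChangeCSA L A) := rfl

/-- **The kernel of the restriction**: the algebras that `L` splits. -/
theorem restriction_eq_one_iff (A : CSA.{u, u} K) :
    restriction L (mk A) = 1 ↔
      ∃ n, n ≠ 0 ∧ Nonempty (L ⊗[K] A ≃ₐ[L] Matrix (Fin n) (Fin n) L) :=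
  (restriction_mk L A).symm ▸ mk_eq_one_iff

end baseChange

end FA.BrauerTheory

end
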