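import Fermat.Agent.BrauerTheory.Tower

/-!
# The index divides the degree of every splitting field
-/

set_option autoImplicit false

noncomputable section

universe u

open scoped TensorProduct
open Module

namespace FA.BrauerTheory

variable {K : Type u} [Field K]

/-- **If `L` splits a division algebra of dimension `d²`, then `d` divides `[L:K]`.** -/
theorem dvd_finrank_of_split {D : Type u} [DivisionRing D] [Algebra K D] [FiniteDimensional K D]
    {L : Type u} [Field L] [Algebra K L] [FiniteDimensional K L] {d : ℕ}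
    (e : L ⊗[K] D ≃ₐ[L] Matrix (Fin d) (Fin d) L) :
    finrank K D = d ^ 2 ∧ d ∣ finrank K L := by
  have hD : finrank K D = d ^ 2 := by
    have h := e.toLinearEquiv.finrank_eq
    rwa [Module.finrank_baseChange, Module.finrank_matrix, Fintype.card_fin, Module.finrank_self,
      mul_one, ← sq] at h
  refine ⟨hD, ?_⟩
  let ρ : D →ₐ[K] Module.End L (Fin d → L) :=
    ((Matrix.toLinAlgEquiv'.toAlgHom.comp e.toAlgHom).restrictScalars K).comp
      Algebra.TensorProduct.includeRight
  let _ : Module D (Fin d → L) := Module.compHom (Fin d → L) ρ.toRingHom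
  have hsm : ∀ (q : D) (v : Fin d → L), q • v = ρ q v := fun _ _ => rfl
  have : IsScalarTower K D (Fin d → L) :=
    ⟨fun c q v => by rw [hsm, hsm, map_smul, LinearMap.smul_apply]⟩
  have h := Module.finrank_mul_finrank K D (Fin d → L)
  rw [hD, Module.finrank_pi_fintype, Finset.sum_const, Finset.card_univ, Fintype.card_fin,
    smul_eq_mul, sq, mul_assoc] at h
  have hd : 0 < d := by
    have := hD ▸ (Module.finrank_pos (R := K) (M := D))
    exact Nat.pos_of_ne_zero fun h0 => by simp [h0] at this
  exact ⟨_, (Nat.eq_of_mul_eq_mul_left hd h).symm⟩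

/-- A central simple algebra is a matrix algebra over a central division algebra. -/
theorem exists_algEquiv_matrix_division (A : CSA.{u, u} K) :
    ∃ (D : Type u) (_ : DivisionRing D) (_ : Algebra K D) (_ : FiniteDimensional K D)
      (_ : Algebra.IsCentral K D) (n : ℕ),
        n ≠ 0 ∧ Nonempty (A ≃ₐ[K] Matrix (Fin n) (Fin n) D) := by
  have := IsArtinianRing.of_finite K A
  obtain ⟨n, hn, D, _, _, _, ⟨e⟩⟩ := IsSimpleRing.exists_algEquiv_matrix_divisionRing_finite K A
  have : Algebra.IsCentral K D := ⟨fun z hz => by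
    have hs : e.symm (Matrix.scalar (Fin n) z) ∈ Subalgebra.center K A :=
      Subalgebra.mem_center_iff.2 fun X => e.injective (by
        rw [map_mul, map_mul, AlgEquiv.apply_symm_apply]
        exact (Matrix.scalar_commute _
          (fun y => (Subalgebra.mem_center_iff.1 hz y).symm) _).symm)
    obtain ⟨c, hc⟩ := Algebra.mem_bot.1 (Algebra.IsCentral.out hs)
    have h0 := congrFun₂ (congrArg e hc) 0 0
    rw [AlgEquiv.apply_symm_apply, AlgEquiv.commutes] at h0
    exact Algebra.mem_bot.2 ⟨c, by
      simpa [Matrix.scalar_apply, Matrix.algebraMap_matrix_apply] using h0⟩⟩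
  exact ⟨D, inferInstance, inferInstance, inferInstance, this, n, NeZero.ne n, ⟨e⟩⟩

/-- Every class is the class of a division algebra. -/
theorem exists_division_rep (x : BrauerGroup.{u, u} K) :
    ∃ (D : Type u) (_ : DivisionRing D) (_ : Algebra K D) (_ : FiniteDimensional K D)
      (_ : Algebra.IsCentral K D), x = mk { __ := AlgCat.of K D } := by
  induction x using Quotient.inductionOn with
  | h A =>
    obtain ⟨D, i1, i2, i3, i4, n, hn, ⟨e⟩⟩ := exists_algEquiv_matrix_division A
    exact ⟨D, i1, i2, i3, i4, Quotient.sound (equivalent_of_algEquiv_matrix hn e)⟩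

/-- **A class split by extensions of degree prime to `p` for every prime `p` is trivial.** -/
theorem eq_one_of_coprime_splitting {x : BrauerGroup.{u, u} K}
    (h : ∀ p : ℕ, p.Prime → ∃ (L : Type u) (_ : Field L) (_ : Algebra K L),
      FiniteDimensional K L ∧ ¬ p ∣ finrank K L ∧ restriction L x = 1) : x = 1 := by
  obtain ⟨D, _, _, _, _, rfl⟩ := exists_division_rep x
  by_contra hne
  obtain ⟨L₀, _, _, hL₀, -, h₀⟩ := exists_separable_restriction_eq_one
    (mk ({ __ := AlgCat.of K D } : CSA.{u, u} K))
  obtain ⟨d, -, ⟨e₀⟩⟩ := (restriction_eq_one_iff L₀ _).1 h₀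
  obtain ⟨hd, -⟩ := dvd_finrank_of_split (D := D) e₀
  have hd1 : d ≠ 1 := by
    rintro rfl
    exact hne ((mk_eq_iff (B := trivialCSA K)).2 (equivalent_of_algEquiv (equivOfFinrankEq
      (Algebra.ofId K D) (by rw [Module.finrank_self, hd, one_pow])).symm))
  obtain ⟨L, _, _, hL, hp, hs⟩ := h d.minFac (Nat.minFac_prime hd1)
  obtain ⟨d', -, ⟨e⟩⟩ := (restriction_eq_one_iff L _).1 hs
  obtain ⟨hd', hdvd⟩ := dvd_finrank_of_split (D := D) e
  obtain rfl : d = d' := Nat.pow_left_injective two_ne_zero (hd.symm.trans hd')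
  exact hp ((Nat.minFac_dvd d).trans hdvd)

end FA.BrauerTheory

end
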