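import Fermat.Agent.BrauerTheory.Cyclic
import Mathlib.Algebra.Central.End
import Mathlib.GroupTheory.QuotientGroup.Basic

/-!
# The relative Brauer group of a cyclic extension

`a ↦ (L/K, σ, a)` maps `Kˣ` onto the kernel of `Br(K) → Br(L)`, with kernel the norms from `L`.
-/

set_option autoImplicit false

noncomputable section

universe u

open scoped TensorProduct
open Module

namespace FA.BrauerTheory

open FA.CyclicAlgebra

variable {K : Type u} [Field K] {L : Type u} [Field L] [Algebra K L] [FiniteDimensional K L]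
  [IsGalois K L] {σ : L ≃ₐ[K] L}

theorem exists_cyclicCSA (hσ : ∀ g, g ∈ Subgroup.zpowers σ) (a : Kˣ) :
    ∃ A : CSA.{u, u} K, ∃ _ : Presentation σ (a : K) A, finrank K A = finrank K L ^ 2 := by
  obtain ⟨A, _, _, _, _, P, hA⟩ := exists_presentation σ hσ a.ne_zero
  have := P.isCentral hσ a.ne_zero hA
  have := P.isSimpleRing hσ a.ne_zero hA
  exact ⟨{ __ := AlgCat.of K A }, P, hA⟩

/-- The class of `(L/K, σ, a)`. -/
def cyclicClass (hσ : ∀ g, g ∈ Subgroup.zpowers σ) (a : Kˣ) : BrauerGroup.{u, u} K :=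
  mk (exists_cyclicCSA hσ a).choose

/-- Every presentation gives the same class. -/
theorem cyclicClass_eq (hσ : ∀ g, g ∈ Subgroup.zpowers σ) (a : Kˣ) {A : CSA.{u, u} K}
    (P : Presentation σ (a : K) A) (hA : finrank K A = finrank K L ^ 2) :
    cyclicClass hσ a = mk A := by
  obtain ⟨Q, hQ⟩ := (exists_cyclicCSA hσ a).choose_spec
  obtain ⟨e⟩ := Q.nonempty_algEquiv P hσ a.ne_zero hQ hA
  exact mk_eq_iff.2 (equivalent_of_algEquiv e)

theorem cyclicClass_eq_one_iff (hσ : ∀ g, g ∈ Subgroup.zpowers σ) (a : Kˣ) :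
    cyclicClass hσ a = 1 ↔ ∃ x : L, Algebra.norm K x = a := by
  obtain ⟨P, hA⟩ := (exists_cyclicCSA hσ a).choose_spec
  rw [cyclicClass, mk_eq_one_iff]
  constructor
  · rintro ⟨m, -, ⟨e⟩⟩
    have h := e.toLinearEquiv.finrank_eq
    rw [hA, Module.finrank_matrix, Fintype.card_fin, Module.finrank_self, mul_one, ← sq] at h
    obtain rfl := Nat.pow_left_injective two_ne_zero h
    exact (nonempty_matrix_iff hσ hA P a.ne_zero).1 ⟨e⟩
  · exact fun h => ⟨_, Module.finrank_pos.ne', (nonempty_matrix_iff hσ hA P a.ne_zero).2 h⟩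

/-- **`a ↦ (L/K, σ, a)` is a homomorphism.** -/
def cyclicHom (hσ : ∀ g, g ∈ Subgroup.zpowers σ) : Kˣ →* BrauerGroup.{u, u} K where
  toFun := cyclicClass hσ
  map_one' := (cyclicClass_eq_one_iff hσ 1).2 ⟨1, by simp⟩
  map_mul' a b := by
    obtain ⟨P, hA⟩ := (exists_cyclicCSA hσ a).choose_spec
    obtain ⟨Q, hB⟩ := (exists_cyclicCSA hσ b).choose_spec
    obtain ⟨R, hC⟩ := (exists_cyclicCSA hσ (a * b)).choose_spec
    exact (mk_mul_cyclic hσ a.ne_zero b.ne_zero P Q R hA hB hC).symm

theorem cyclicHom_ker (hσ : ∀ g, g ∈ Subgroup.zpowers σ) :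
    (cyclicHom hσ).ker = (Units.map (Algebra.norm K : L →* K)).range := by
  ext a
  rw [MonoidHom.mem_ker, show cyclicHom hσ a = cyclicClass hσ a from rfl, cyclicClass_eq_one_iff]
  refine ⟨fun ⟨x, hx⟩ => ?_, fun ⟨x, hx⟩ => ⟨x, congrArg Units.val hx⟩⟩
  have hx0 : x ≠ 0 := fun h => a.ne_zero (by rw [← hx, h, Algebra.norm_zero])
  exact ⟨Units.mk0 x hx0, Units.ext hx⟩

omit [IsGalois K L] in
/-- **A copy of `L` in an algebra of degree `[L:K]` splits it.** -/
theorem nonempty_split_of_embedding {A : Type u} [Ring A] [Algebra K A] [IsSimpleRing A]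
    [Algebra.IsCentral K A] [FiniteDimensional K A] (hA : finrank K A = finrank K L ^ 2)
    (f : L →ₐ[K] A) :
    Nonempty (L ⊗[K] Aᵐᵒᵖ ≃ₐ[L] Matrix (Fin (finrank K L)) (Fin (finrank K L)) L) := by
  let _ : Module L A := Module.compHom A f.toRingHom
  have hsm : ∀ (l : L) (x : A), l • x = f l * x := fun l x => rfl
  have : IsScalarTower K L A := ⟨fun c l x => by rw [hsm, hsm, map_smul, smul_mul_assoc]⟩
  have : FiniteDimensional L A := Module.Finite.of_restrictScalars_finite K L A
  have hdim : finrank L A = finrank K L := by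
    have h := Module.finrank_mul_finrank K L A
    rw [hA, sq] at h
    exact Nat.eq_of_mul_eq_mul_left Module.finrank_pos h
  let φ : Aᵐᵒᵖ →ₐ[K] Module.End L A :=
    { toFun := fun d =>
        { toFun := fun x => x * d.unop
          map_add' := fun x y => add_mul x y _
          map_smul' := fun l x => mul_assoc (f l) x _ }
      map_one' := LinearMap.ext fun x => mul_one x
      map_mul' := fun d d' => LinearMap.ext fun x => (mul_assoc x _ _).symm
      map_zero' := LinearMap.ext fun x => mul_zero x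
      map_add' := fun d d' => LinearMap.ext fun x => mul_add x _ _
      commutes' := fun c => LinearMap.ext fun x => by
        show x * algebraMap K A c = (algebraMap K (Module.End L A) c) x
        rw [Module.algebraMap_end_apply, ← Algebra.commutes, Algebra.smul_def] }
  have : IsSimpleRing (L ⊗[K] Aᵐᵒᵖ) := FA.CSA.isSimpleRing_tensorProduct K L Aᵐᵒᵖ
  exact ⟨(equivOfFinrankEq (Algebra.TensorProduct.lift (Algebra.ofId L _) φ
    fun a d => Algebra.commutes a _) (by
      rw [Module.finrank_baseChange, ← (MulOpposite.opLinearEquiv K : A ≃ₗ[K] Aᵐᵒᵖ).finrank_eq,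
        Module.finrank_linearMap, hdim, hA, sq])).trans
    (algEquivMatrix (Module.finBasisOfFinrankEq L A hdim))⟩

/-- `(L/K, σ, a)` is split by `L`. -/
theorem restriction_cyclicHom (hσ : ∀ g, g ∈ Subgroup.zpowers σ) (a : Kˣ) :
    restriction L (cyclicHom hσ a) = 1 := by
  obtain ⟨P, hA⟩ := (exists_cyclicCSA hσ a).choose_spec
  rw [← inv_eq_one, ← map_inv]
  exact (restriction_eq_one_iff L _).2
    ⟨_, Module.finrank_pos.ne', nonempty_split_of_embedding hA P.f⟩

/-- **A class split by `L` is cyclic.** -/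
theorem exists_cyclicHom_eq (hσ : ∀ g, g ∈ Subgroup.zpowers σ) (A : CSA.{u, u} K)
    (h : restriction L (mk A) = 1) : ∃ a, cyclicHom hσ a = mk A := by
  obtain ⟨m, hm, ⟨e⟩⟩ := (restriction_eq_one_iff L A).1 h
  have : Nonempty (Fin m) := ⟨⟨0, Nat.pos_of_ne_zero hm⟩⟩
  let V := Fin m → L
  -- `A` acts `L`-linearly on `V = L ^ m`
  let ρ : (A : Type u) →ₐ[K] Module.End L V :=
    ((Matrix.toLinAlgEquiv'.toAlgHom.comp e.toAlgHom).restrictScalars K).comp
      Algebra.TensorProduct.includeRight
  let ρK : (A : Type u) →ₐ[K] Module.End K V :=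
    { toFun := fun x => (ρ x).restrictScalars K
      map_one' := by rw [map_one]; rfl
      map_mul' := fun x y => by rw [map_mul]; rfl
      map_zero' := by rw [map_zero]; rfl
      map_add' := fun x y => by rw [map_add]; rfl
      commutes' := fun c => by
        rw [AlgHom.commutes]
        ext v
        rfl }
  have hV : finrank K V = m * finrank K L := by
    rw [Module.finrank_pi_fintype, Finset.sum_const, Finset.card_univ, Fintype.card_fin,
      smul_eq_mul]
  have hdA : finrank K A = m * m := by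
    have h := e.toLinearEquiv.finrank_eq
    rwa [Module.finrank_baseChange, Module.finrank_matrix, Fintype.card_fin, Module.finrank_self,
      mul_one] at h
  have : Nontrivial V := inferInstance
  have : IsSimpleRing (Module.End K V) :=
    have : Nonempty (Fin (finrank K V)) := ⟨⟨0, Module.finrank_pos⟩⟩
    IsSimpleRing.of_ringEquiv (algEquivMatrix (Module.finBasis K V)).symm.toRingEquiv inferInstance
  have hinj : Function.Injective ρK := ρK.toRingHom.injective
  have : IsSimpleRing ρK.range :=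
    IsSimpleRing.of_ringEquiv (AlgEquiv.ofInjective ρK hinj).toRingEquiv inferInstance
  let Z := Subalgebra.centralizer K (ρK.range : Set (Module.End K V))
  let _ : Ring Z := Subalgebra.toRing (A := Module.End K V) Z
  have : IsSimpleRing Z := FA.CSA.isSimpleRing_centralizer ρK.range
  have hc := FA.CSA.finrank_centralizer ρK.range
  rw [← (AlgEquiv.ofInjective ρK hinj).toLinearEquiv.finrank_eq, hdA, Module.finrank_linearMap,
    hV] at hc
  have hZ : finrank K Z = finrank K L ^ 2 :=
    Nat.eq_of_mul_eq_mul_left (by positivity : 0 < m * m) (hc.trans (by ring))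
  have := FA.CSA.isSimpleRing_tensorProduct K Z (A : Type u)
  let E : (Z : Type u) ⊗[K] (A : Type u) ≃ₐ[K] Module.End K V :=
    equivOfFinrankEq (R := (Z : Type u) ⊗[K] (A : Type u)) (S := Module.End K V)
      (Algebra.TensorProduct.lift Z.val ρK
        fun z x => ((Subalgebra.mem_centralizer_iff K).1 z.2 (ρK x) ⟨x, rfl⟩).symm)
      (Module.finrank_tensorProduct.trans (by rw [hZ, hdA, Module.finrank_linearMap, hV]; ring))
  have : Algebra.IsCentral K ((Z : Type u) ⊗[K] (A : Type u)) :=
    Algebra.IsCentral.of_algEquiv K _ _ E.symm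
  have : Algebra.IsCentral K Z := Algebra.IsCentral.left_of_tensor_of_field K Z A
  let ZC : CSA.{u, u} K := { __ := AlgCat.of K Z }
  -- `L` lies in the commutant
  let f : L →ₐ[K] Z := AlgHom.codRestrict (Algebra.lsmul K K V) Z fun l =>
    (Subalgebra.mem_centralizer_iff K).2 fun g hg => by
      obtain ⟨x, rfl⟩ := hg
      exact LinearMap.ext fun v => (ρ x).map_smul l v
  obtain ⟨a, ha, ⟨P⟩⟩ := exists_presentation_of_embedding hσ hZ f
  refine ⟨(Units.mk0 a ha)⁻¹, ?_⟩
  rw [map_inv, show cyclicHom hσ (Units.mk0 a ha) = mk ZC from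
    cyclicClass_eq hσ (Units.mk0 a ha) (A := ZC) P hZ, inv_eq_iff_mul_eq_one, mk_mul, mk_eq_one_iff]
  exact ⟨finrank K V, Module.finrank_pos.ne', ⟨E.trans (algEquivMatrix (Module.finBasis K V))⟩⟩

theorem cyclicHom_range (hσ : ∀ g, g ∈ Subgroup.zpowers σ) :
    (cyclicHom hσ).range = (restriction (K := K) L).ker := by
  ext x
  refine ⟨fun ⟨a, ha⟩ => ha ▸ restriction_cyclicHom hσ a, fun hx => ?_⟩
  induction x using Quotient.inductionOn with
  | h A => exact exists_cyclicHom_eq hσ A hx

/-- **`Br(L/K) ≅ Kˣ / N(Lˣ)`.** -/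
def relativeEquiv (hσ : ∀ g, g ∈ Subgroup.zpowers σ) :
    Kˣ ⧸ (Units.map (Algebra.norm K : L →* K)).range ≃* (restriction (K := K) L).ker :=
  (QuotientGroup.quotientMulEquivOfEq (cyclicHom_ker hσ).symm).trans
    ((QuotientGroup.quotientKerEquivRange (cyclicHom hσ)).trans
      (MulEquiv.subgroupCongr (cyclicHom_range hσ)))

end FA.BrauerTheory

end
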