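import Fermat.Agent.BrauerTheory.Relative
import Fermat.Agent.CSA.Subfields
import Fermat.Agent.CyclicAlgebra.Global

/-!
# Separable splitting, and the local-global principle for classes split by a cyclic extension
-/

set_option autoImplicit false

noncomputable section

universe u

open scoped TensorProduct
open Module NumberField IsDedekindDomain

namespace FA.BrauerTheory

/-- **Every class is killed by a finite separable extension.** -/
theorem exists_separable_restriction_eq_one {K : Type u} [Field K] (x : BrauerGroup.{u, u} K) :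
    ∃ (L : Type u) (_ : Field L) (_ : Algebra K L), FiniteDimensional K L ∧
      Algebra.IsSeparable K L ∧ restriction L x = 1 := by
  induction x using Quotient.inductionOn with
  | h A =>
    have := IsArtinianRing.of_finite K A
    obtain ⟨n, hn, D, _, _, _, ⟨e⟩⟩ := IsSimpleRing.exists_algEquiv_matrix_divisionRing_finite K A
    have : Algebra.IsCentral K D := ⟨fun z hz => by
      have hs : e.symm (Matrix.scalar (Fin n) z) ∈ Subalgebra.center K A :=
        Subalgebra.mem_center_iff.2 fun X => e.injective (by
          rw [map_mul, map_mul, AlgEquiv.apply_symm_apply]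
          exact (Matrix.scalar_commute _
            (fun y => (Subalgebra.mem_center_iff.1 hz y).symm) _).symm)
      obtain ⟨c, hc⟩ := Algebra.mem_bot.1 (Algebra.IsCentral.out hs)
      have h0 := congrFun₂ (congrArg e hc) 0 0
      rw [AlgEquiv.apply_symm_apply, AlgEquiv.commutes] at h0
      exact Algebra.mem_bot.2 ⟨c, by
        simpa [Matrix.scalar_apply, Matrix.algebraMap_matrix_apply] using h0⟩⟩
    obtain ⟨L, hL, hs, hdeg, he⟩ := FA.CSA.exists_splitting (F := K) (D := D)
    let _ : Field L := hL.toField
    obtain ⟨f⟩ := he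
    have : FiniteDimensional K L := FiniteDimensional.of_finrank_pos (Nat.pos_of_ne_zero fun h => by
      rw [h, sq, zero_mul] at hdeg
      exact (Module.finrank_pos (R := K) (M := D)).ne hdeg)
    refine ⟨L, _, _, this, hs, (restriction_eq_one_iff _ A).2 ⟨n * finrank K L,
      mul_ne_zero (NeZero.ne n) Module.finrank_pos.ne', ⟨?_⟩⟩⟩
    exact ((Algebra.TensorProduct.congr AlgEquiv.refl e).trans
      (baseChangeMatrixEquiv (K := K) (B := D) L n)).trans
        ((f.mapMatrix.trans (Matrix.compAlgEquiv _ _ _ _)).trans
          (Matrix.reindexAlgEquiv _ _ finProdFinEquiv))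

/-- **A class split by a cyclic extension of number fields is trivial as soon as it is trivial at
every prime and every real embedding.** -/
theorem eq_one_of_local {K L : Type} [Field K] [NumberField K] [Field L] [NumberField L]
    [Algebra K L] [IsGalois K L] [IsCyclic (L ≃ₐ[K] L)] {x : BrauerGroup.{0, 0} K}
    (hx : restriction L x = 1)
    (hfin : ∀ v : HeightOneSpectrum (𝓞 K), restriction (v.adicCompletion K) x = 1)
    (hreal : ∀ φ : K →+* ℝ, letI := φ.toAlgebra; restriction ℝ x = 1) : x = 1 := by
  obtain ⟨σ, hσ⟩ := IsCyclic.exists_generator (α := L ≃ₐ[K] L)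
  obtain ⟨a, rfl⟩ : x ∈ (cyclicHom hσ).range := by rw [cyclicHom_range hσ]; exact hx
  obtain ⟨P, hA⟩ := (exists_cyclicCSA hσ a).choose_spec
  have := P.isCentral hσ a.ne_zero hA
  refine (cyclicClass_eq_one_iff hσ a).2
    ((FA.CyclicAlgebra.nonempty_matrix_iff hσ hA P a.ne_zero).1
      ((FA.CyclicAlgebra.nonempty_matrix_iff_local hσ P a.ne_zero hA).2
        ⟨fun v => ?_, fun φ => ?_⟩))
  · obtain ⟨m, -, ⟨f⟩⟩ := (restriction_eq_one_iff (v.adicCompletion K) _).1 (hfin v)
    have h := f.toLinearEquiv.finrank_eq
    rw [Module.finrank_baseChange, hA, Module.finrank_matrix, Fintype.card_fin,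
      Module.finrank_self, mul_one, ← sq] at h
    obtain rfl := Nat.pow_left_injective two_ne_zero h
    exact ⟨f⟩
  · let _ : Algebra K ℝ := φ.toAlgebra
    obtain ⟨m, -, ⟨f⟩⟩ := (restriction_eq_one_iff ℝ _).1 (hreal φ)
    have h := f.toLinearEquiv.finrank_eq
    rw [Module.finrank_baseChange, hA, Module.finrank_matrix, Fintype.card_fin,
      Module.finrank_self, mul_one, ← sq] at h
    obtain rfl := Nat.pow_left_injective two_ne_zero h
    exact ⟨f⟩

end FA.BrauerTheory

end
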