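import Fermat.Agent.BrauerTheory.Splitting
import Fermat.Agent.LocalCFT.Completion

/-!
# Restriction in towers of fields

Restriction is functorial, and a class of a number field which is trivial at every place stays so in
every extension.
-/

set_option autoImplicit false

noncomputable section

universe u

open scoped TensorProduct
open Module NumberField IsDedekindDomain

namespace FA.BrauerTheory

variable {K : Type u} [Field K]

/-- **Restriction is functorial.** -/
theorem restriction_restriction (L M : Type u) [Field L] [Field M] [Algebra K L] [Algebra K M]
    [Algebra L M] [IsScalarTower K L M] (x : BrauerGroup.{u, u} K) :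
    restriction M (restriction L x) = restriction M x := by
  induction x using Quotient.inductionOn with
  | h A =>
    exact Quotient.sound
      (equivalent_of_algEquiv (AlgEquiv.ofLinearEquiv
        (TensorProduct.AlgebraTensorModule.cancelBaseChange K L M M A).symm
        (by simp [Algebra.TensorProduct.one_def])
        (LinearMap.map_mul_of_map_mul_tmul fun _ _ _ _ => by simp)).symm)

/-- A larger field splits what a smaller one does. -/
theorem restriction_eq_one_of_algHom {L M : Type u} [Field L] [Field M] [Algebra K L] [Algebra K M]
    (g : L →ₐ[K] M) {x : BrauerGroup.{u, u} K} (h : restriction L x = 1) :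
    restriction M x = 1 := by
  let _ : Algebra L M := g.toRingHom.toAlgebra
  have : IsScalarTower K L M := IsScalarTower.of_algebraMap_eq fun c => (g.commutes c).symm
  rw [← restriction_restriction L M x, h, map_one]

theorem restriction_self (x : BrauerGroup.{u, u} K) : restriction K x = x := by
  induction x using Quotient.inductionOn with
  | h A => exact Quotient.sound (equivalent_of_algEquiv (Algebra.TensorProduct.lid K A))

/-- The class is trivial at every prime and every real embedding. -/
def LocallyTrivial {K : Type} [Field K] [NumberField K] (x : BrauerGroup.{0, 0} K) : Prop :=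
  (∀ v : HeightOneSpectrum (𝓞 K), restriction (v.adicCompletion K) x = 1) ∧
    ∀ φ : K →+* ℝ, letI := φ.toAlgebra; restriction ℝ x = 1

/-- The completion at the prime below maps to the completion. -/
theorem exists_completionHom (K : Type) {M : Type} [Field K] [NumberField K] [Field M]
    [NumberField M] [Algebra K M] (w : HeightOneSpectrum (𝓞 M)) :
    ∃ g : (FA.ArtinRec.belowP K w).adicCompletion K →+* w.adicCompletion M, ∀ c : K,
      g (algebraMap K _ c) = algebraMap M _ (algebraMap K M c) := by
  have hf : ∀ a : K, w.valuation M (algebraMap K M a) =
      (FA.ArtinRec.belowP K w).valuation K a ^ FA.ArtinRec.eIdx K w := fun a => by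
    have : w.asIdeal.LiesOver (FA.ArtinRec.belowP K w).asIdeal := ⟨rfl⟩
    exact (HeightOneSpectrum.valuation_liesOver M (FA.ArtinRec.belowP K w) w a).symm
  exact ⟨FA.LocalCFT.extHom _ w (algebraMap K M) (FA.ArtinRec.eIdx_pos w) hf,
    FA.LocalCFT.extHom_algebraMap _ _ _ _ _⟩

/-- **Local triviality passes to extensions.** -/
theorem LocallyTrivial.restriction {K : Type} [Field K] [NumberField K] {x : BrauerGroup.{0, 0} K}
    (hx : LocallyTrivial x) (M : Type) [Field M] [NumberField M] [Algebra K M] :
    LocallyTrivial (FA.BrauerTheory.restriction M x) := by
  refine ⟨fun w => ?_, fun φ => ?_⟩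
  · obtain ⟨g, hg⟩ := exists_completionHom K w
    let _ : Algebra K (w.adicCompletion M) :=
      ((algebraMap M (w.adicCompletion M)).comp (algebraMap K M)).toAlgebra
    have : IsScalarTower K M (w.adicCompletion M) := IsScalarTower.of_algebraMap_eq fun _ => rfl
    rw [restriction_restriction]
    exact restriction_eq_one_of_algHom (L := (FA.ArtinRec.belowP K w).adicCompletion K)
      { g with commutes' := hg } (hx.1 _)
  · let _ : Algebra M ℝ := φ.toAlgebra
    let _ : Algebra K ℝ := (φ.comp (algebraMap K M)).toAlgebra
    have : IsScalarTower K M ℝ := IsScalarTower.of_algebraMap_eq fun _ => rfl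
    rw [restriction_restriction]
    exact hx.2 _

end FA.BrauerTheory

end
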